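/-
Existence of a nonzero `p`-torsion point on an elliptic curve over an algebraically closed field
of characteristic zero (helper43).  Part 1: coordinates `a + bY`, the pole-order symbol.
-/
import Mathlib

set_option autoImplicit false

namespace Fermat.Agent.Lib.TorsionExists

open Polynomial WeierstrassCurve WeierstrassCurve.Affine
open scoped Polynomial.Bivariate

variable {K : Type*} [Field K] (W : Affine K)

/-- The `1`-coordinate of `f = a + bY`. -/
noncomputable def cA (f : W.CoordinateRing) : K[X] := (CoordinateRing.basis W).repr f 0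

/-- The `Y`-coordinate of `f = a + bY`. -/
noncomputable def cB (f : W.CoordinateRing) : K[X] := (CoordinateRing.basis W).repr f 1

/-- `a + bY`. -/
noncomputable def ofAB (a b : K[X]) : W.CoordinateRing :=
  a • (1 : W.CoordinateRing) + b • CoordinateRing.mk W Y

lemma ofAB_cA_cB (f : W.CoordinateRing) : ofAB W (cA W f) (cB W f) = f := by
  have h := (CoordinateRing.basis W).sum_repr f
  rw [Fin.sum_univ_succ, Fin.sum_univ_one, CoordinateRing.basis_zero, Fin.succ_zero_eq_one,
    CoordinateRing.basis_one] at h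
  exact h

lemma ofAB_injective {a b c d : K[X]} (h : ofAB W a b = ofAB W c d) : a = c ∧ b = d := by
  have h' : (a - c) • (1 : W.CoordinateRing) + (b - d) • CoordinateRing.mk W Y = 0 := by
    unfold ofAB at h
    rw [sub_smul, sub_smul]
    linear_combination h
  obtain ⟨h1, h2⟩ := CoordinateRing.smul_basis_eq_zero h'
  exact ⟨sub_eq_zero.mp h1, sub_eq_zero.mp h2⟩

@[simp] lemma cA_ofAB (a b : K[X]) : cA W (ofAB W a b) = a :=
  ((ofAB_injective W (ofAB_cA_cB W (ofAB W a b))).1)

@[simp] lemma cB_ofAB (a b : K[X]) : cB W (ofAB W a b) = b :=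
  ((ofAB_injective W (ofAB_cA_cB W (ofAB W a b))).2)

lemma ofAB_add (a b c d : K[X]) : ofAB W a b + ofAB W c d = ofAB W (a + c) (b + d) := by
  unfold ofAB; rw [add_smul, add_smul]; ring

lemma ofAB_zero : ofAB W 0 0 = 0 := by unfold ofAB; simp

lemma ofAB_smul (r : K) (a b : K[X]) : r • ofAB W a b = ofAB W (C r * a) (C r * b) := by
  unfold ofAB
  rw [smul_add, mul_smul, mul_smul]
  congr 1
  · rw [← algebraMap_eq, algebraMap_smul]
  · rw [← algebraMap_eq, algebraMap_smul]

/-- The cubic `X³ + a₂X² + a₄X + a₆`. -/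
noncomputable def cub : K[X] := X ^ 3 + C W.a₂ * X ^ 2 + C W.a₄ * X + C W.a₆

/-- The linear polynomial `a₁X + a₃`. -/
noncomputable def lin : K[X] := C W.a₁ * X + C W.a₃

lemma ofAB_mul_C (a b c : K[X]) :
    ofAB W a b * CoordinateRing.mk W (C c) = ofAB W (a * c) (b * c) :=
  CoordinateRing.smul_basis_mul_C (W' := W) c a b

lemma ofAB_mul_Y (a b : K[X]) :
    ofAB W a b * CoordinateRing.mk W Y = ofAB W (b * cub W) (a - b * lin W) :=
  CoordinateRing.smul_basis_mul_Y (W' := W) a b

lemma ofAB_eq (c d : K[X]) :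
    ofAB W c d = CoordinateRing.mk W (C c) + CoordinateRing.mk W Y * CoordinateRing.mk W (C d) := by
  unfold ofAB
  rw [CoordinateRing.smul, CoordinateRing.smul, mul_one, mul_comm]

lemma ofAB_mul (a b c d : K[X]) :
    ofAB W a b * ofAB W c d =
      ofAB W (a * c + b * d * cub W) (a * d + b * c - b * d * lin W) := by
  rw [ofAB_eq W c d, mul_add, ← mul_assoc, ofAB_mul_C, ofAB_mul_Y, ofAB_mul_C, ofAB_add]
  congr 1 <;> ring

lemma cA_add (f g : W.CoordinateRing) : cA W (f + g) = cA W f + cA W g := by
  unfold cA; simp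

lemma cB_add (f g : W.CoordinateRing) : cB W (f + g) = cB W f + cB W g := by
  unfold cB; simp

end Fermat.Agent.Lib.TorsionExists
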