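/-
Existence of a nonzero `p`-torsion point (helper43).  Part 7: abstract local lemma.  For a
`K`-algebra `R` (char `K` = 0) with a `K`-point `ev`, maximal ideal `m = ker ev`, a `K`-linear
derivation `D` and `t ∈ m` with `ev (D t) ≠ 0`, `m ≤ (t) + m²`:  `f ∈ mⁿ ↔ ev (Dⁱ f) = 0 ∀ i < n`,
and the jet map `f ↦ (ev (Dⁱ f))_{i<n}` is onto.
-/
import Mathlib

set_option autoImplicit false

namespace Fermat.Agent.Lib.TorsionExists.Local

variable {K R : Type*} [Field K] [CommRing R] [Algebra K R]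

/-- Data of a smooth `K`-point with a derivation. -/
structure Datum (K R : Type*) [Field K] [CommRing R] [Algebra K R] where
  ev : R →ₐ[K] K
  D : R →ₗ[K] R
  D_mul : ∀ f g, D (f * g) = f * D g + D f * g
  t : R
  ev_t : ev t = 0
  ev_Dt : ev (D t) ≠ 0
  le_sup : RingHom.ker ev ≤ Ideal.span {t} ⊔ RingHom.ker ev ^ 2

namespace Datum

variable (S : Datum K R)

/-- The maximal ideal. -/
def m : Ideal R := RingHom.ker S.ev

lemma mem_m {f : R} : f ∈ S.m ↔ S.ev f = 0 := RingHom.mem_ker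

lemma t_mem : S.t ∈ S.m := S.mem_m.mpr S.ev_t

lemma sub_ev_mem (f : R) : f - S.ev f • (1 : R) ∈ S.m := by
  rw [mem_m, map_sub, map_smul, map_one, smul_eq_mul, mul_one, sub_self]

lemma D_one : S.D 1 = 0 := by
  have h := S.D_mul 1 1
  rw [mul_one, one_mul, mul_one] at h
  have : S.D 1 + S.D 1 = S.D 1 + 0 := by rw [add_zero]; exact h.symm
  exact add_left_cancel this

lemma D_pow_succ (f : R) (n : ℕ) : S.D (f ^ (n + 1)) = ((n + 1 : ℕ) : K) • (f ^ n * S.D f) := by
  induction n with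
  | zero => simp
  | succ n ih =>
    rw [pow_succ, S.D_mul, ih]
    simp only [Algebra.smul_def, map_add, map_natCast, map_one, Nat.cast_add, Nat.cast_one]
    ring

/-- `D` lowers the order of vanishing by at most one. -/
lemma D_mem_pow (k : ℕ) {f : R} (hf : f ∈ S.m ^ (k + 1)) : S.D f ∈ S.m ^ k := by
  induction k generalizing f with
  | zero => simp
  | succ k ih =>
    rw [pow_succ] at hf
    refine Submodule.mul_induction_on hf ?_ ?_
    · intro x hx y hy
      rw [S.D_mul]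
      refine Ideal.add_mem _ (Ideal.mul_mem_right _ _ hx) ?_
      rw [pow_succ]
      exact Ideal.mul_mem_mul (ih hx) hy
    · intro x y hx hy
      rw [map_add]
      exact Ideal.add_mem _ hx hy

lemma D_pow_mem_pow (i k : ℕ) {f : R} (hf : f ∈ S.m ^ (k + i)) : (S.D ^ i) f ∈ S.m ^ k := by
  induction i generalizing f with
  | zero => simpa using hf
  | succ i ih =>
    rw [pow_succ, Module.End.mul_apply]
    apply ih
    apply S.D_mem_pow
    rw [add_assoc]
    exact hf

lemma ev_D_pow_eq_zero {i n : ℕ} (hi : i < n) {f : R} (hf : f ∈ S.m ^ n) :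
    S.ev ((S.D ^ i) f) = 0 := by
  rw [← mem_m]
  have h1 : f ∈ S.m ^ (1 + i) := Ideal.pow_le_pow_right (by omega) hf
  have := S.D_pow_mem_pow i 1 h1
  rwa [pow_one] at this

lemma pow_le_sup (n : ℕ) : S.m ^ n ≤ Ideal.span {S.t ^ n} ⊔ S.m ^ (n + 1) := by
  induction n with
  | zero =>
    rw [pow_zero, pow_zero, Ideal.span_singleton_one, Ideal.one_eq_top]
    exact le_sup_of_le_left le_rfl
  | succ n ih =>
    have h1 : S.m ≤ Ideal.span {S.t} ⊔ S.m ^ 2 := S.le_sup
    calc S.m ^ (n + 1) = S.m ^ n * S.m := pow_succ _ _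
      _ ≤ (Ideal.span {S.t ^ n} ⊔ S.m ^ (n + 1)) * (Ideal.span {S.t} ⊔ S.m ^ 2) :=
        Ideal.mul_mono ih h1
      _ ≤ Ideal.span {S.t ^ (n + 1)} ⊔ S.m ^ (n + 1 + 1) := by
        rw [Ideal.sup_mul, Ideal.mul_sup, Ideal.mul_sup]
        refine sup_le (sup_le ?_ ?_) (sup_le ?_ ?_)
        · rw [Ideal.span_singleton_mul_span_singleton, ← pow_succ]
          exact le_sup_left
        · refine le_trans ?_ le_sup_right
          have : Ideal.span {S.t ^ n} ≤ S.m ^ n := by
            rw [Ideal.span_singleton_le_iff_mem]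
            exact Ideal.pow_mem_pow S.t_mem n
          calc Ideal.span {S.t ^ n} * S.m ^ 2 ≤ S.m ^ n * S.m ^ 2 := Ideal.mul_mono this le_rfl
            _ = S.m ^ (n + 1 + 1) := by rw [← pow_add]
        · refine le_trans ?_ le_sup_right
          have : Ideal.span {S.t} ≤ S.m := by
            rw [Ideal.span_singleton_le_iff_mem]
            exact S.t_mem
          calc S.m ^ (n + 1) * Ideal.span {S.t} ≤ S.m ^ (n + 1) * S.m := Ideal.mul_mono le_rfl this
            _ = S.m ^ (n + 1 + 1) := by rw [← pow_succ]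
        · refine le_trans ?_ le_sup_right
          calc S.m ^ (n + 1) * S.m ^ 2 = S.m ^ (n + 1 + 2) := by rw [← pow_add]
            _ ≤ S.m ^ (n + 1 + 1) := Ideal.pow_le_pow_right (by omega)

/-- One differentiation step on leading terms. -/
lemma D_step (k : ℕ) {f : R} {c : K} (hf : f - c • S.t ^ (k + 1) ∈ S.m ^ (k + 2)) :
    S.D f - (((k + 1 : ℕ) : K) * c * S.ev (S.D S.t)) • S.t ^ k ∈ S.m ^ (k + 1) := by
  have h1 := S.D_mem_pow (k + 1) hf
  rw [map_sub, map_smul, S.D_pow_succ] at h1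
  have h2 : S.t ^ k * (S.D S.t - S.ev (S.D S.t) • (1 : R)) ∈ S.m ^ (k + 1) := by
    rw [pow_succ]
    exact Ideal.mul_mem_mul (Ideal.pow_mem_pow S.t_mem k) (S.sub_ev_mem _)
  have h3 : S.D f - (((k + 1 : ℕ) : K) * c * S.ev (S.D S.t)) • S.t ^ k =
      (S.D f - c • ((k + 1 : ℕ) : K) • (S.t ^ k * S.D S.t)) +
        (((k + 1 : ℕ) : K) * c) • (S.t ^ k * (S.D S.t - S.ev (S.D S.t) • (1 : R))) := by
    simp only [Algebra.smul_def, map_mul, map_natCast]
    ring
  rw [h3]
  exact Ideal.add_mem _ h1 (Submodule.smul_of_tower_mem _ _ h2)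

/-- The `k`-th jet of an element with leading term `c t^k`. -/
lemma ev_D_pow_of_lead (k : ℕ) {f : R} {c : K} (hf : f - c • S.t ^ k ∈ S.m ^ (k + 1)) :
    S.ev ((S.D ^ k) f) = (k.factorial : K) * c * S.ev (S.D S.t) ^ k := by
  induction k generalizing f c with
  | zero =>
    simp only [pow_zero, zero_add, pow_one] at hf
    rw [mem_m, map_sub, map_smul, map_one, smul_eq_mul, mul_one, sub_eq_zero] at hf
    simp [hf]
  | succ k ih =>
    rw [pow_succ, Module.End.mul_apply, ih (S.D_step k hf), Nat.factorial_succ]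
    push_cast
    ring

variable [CharZero K]

/-- Vanishing of the first `n` jets forces membership in `mⁿ`. -/
theorem mem_pow_of_jets (n : ℕ) {f : R} (h : ∀ i < n, S.ev ((S.D ^ i) f) = 0) : f ∈ S.m ^ n := by
  induction n with
  | zero => simp
  | succ n ih =>
    have hn : f ∈ S.m ^ n := ih fun i hi => h i (by omega)
    obtain ⟨a, ha, b, hb, hab⟩ := Submodule.mem_sup.mp (S.pow_le_sup n hn)
    obtain ⟨r, rfl⟩ := Ideal.mem_span_singleton'.mp ha
    have hlead : f - S.ev r • S.t ^ n ∈ S.m ^ (n + 1) := by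
      have : f - S.ev r • S.t ^ n = (r - S.ev r • (1 : R)) * S.t ^ n + b := by
        rw [← hab, sub_mul, smul_mul_assoc, one_mul]; ring
      have hprod : (r - S.ev r • (1 : R)) * S.t ^ n ∈ S.m ^ (n + 1) := by
        rw [pow_succ']
        exact Ideal.mul_mem_mul (S.sub_ev_mem r) (Ideal.pow_mem_pow S.t_mem n)
      rw [this]
      exact Ideal.add_mem _ hprod hb
    have h0 := S.ev_D_pow_of_lead n hlead
    rw [h n (Nat.lt_succ_self n)] at h0
    have hc : S.ev r = 0 := by
      have h1 : (n.factorial : K) ≠ 0 := Nat.cast_ne_zero.mpr (Nat.factorial_ne_zero n)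
      have h2 : S.ev (S.D S.t) ^ n ≠ 0 := pow_ne_zero _ S.ev_Dt
      by_contra hne
      exact (mul_ne_zero (mul_ne_zero h1 hne) h2) h0.symm
    rwa [hc, zero_smul, sub_zero] at hlead

theorem mem_pow_iff (n : ℕ) {f : R} : f ∈ S.m ^ n ↔ ∀ i < n, S.ev ((S.D ^ i) f) = 0 :=
  ⟨fun hf _ hi => S.ev_D_pow_eq_zero hi hf, S.mem_pow_of_jets n⟩

/-- The jet map is onto. -/
theorem exists_jets (n : ℕ) (v : ℕ → K) : ∃ f : R, ∀ i < n, S.ev ((S.D ^ i) f) = v i := by
  induction n with
  | zero => exact ⟨0, fun i hi => absurd hi (Nat.not_lt_zero i)⟩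
  | succ n ih =>
    obtain ⟨g, hg⟩ := ih
    have h1 : (n.factorial : K) ≠ 0 := Nat.cast_ne_zero.mpr (Nat.factorial_ne_zero n)
    have h2 : S.ev (S.D S.t) ^ n ≠ 0 := pow_ne_zero _ S.ev_Dt
    set c : K := (v n - S.ev ((S.D ^ n) g)) / ((n.factorial : K) * S.ev (S.D S.t) ^ n) with hc
    refine ⟨g + c • S.t ^ n, fun i hi => ?_⟩
    have hmem : c • S.t ^ n ∈ S.m ^ n :=
      Submodule.smul_of_tower_mem _ _ (Ideal.pow_mem_pow S.t_mem n)
    rw [map_add, map_add]
    rcases Nat.lt_succ_iff_lt_or_eq.mp hi with hlt | rfl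
    · rw [S.ev_D_pow_eq_zero hlt hmem, add_zero, hg i hlt]
    · have hl : c • S.t ^ i - c • S.t ^ i ∈ S.m ^ (i + 1) := by rw [sub_self]; exact Ideal.zero_mem _
      rw [S.ev_D_pow_of_lead i hl, hc]
      field_simp
      ring

end Datum

end Fermat.Agent.Lib.TorsionExists.Local
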