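/-
Existence of a nonzero `p`-torsion point (helper43).  Part 7b: in the situation of `Local.Datum`,
a nonzero `f ∈ mⁿ` with `dim_K R/(f) ≤ n` generates `mⁿ`.
-/
import Fermat.Agent.Lib.TorsionExists.Local

set_option autoImplicit false

namespace Fermat.Agent.Lib.TorsionExists.Local

variable {K R : Type*} [Field K] [CommRing R] [Algebra K R] [CharZero K]

namespace Datum

variable (S : Datum K R)

/-- The jet map `f ↦ (ev (Dⁱ f))_{i<n}`. -/
noncomputable def jet (n : ℕ) : R →ₗ[K] (Fin n → K) :=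
  LinearMap.pi fun i => S.ev.toLinearMap ∘ₗ (S.D ^ (i : ℕ))

lemma jet_apply (n : ℕ) (f : R) (i : Fin n) : S.jet n f i = S.ev ((S.D ^ (i : ℕ)) f) := rfl

lemma jet_eq_zero_iff (n : ℕ) (f : R) : S.jet n f = 0 ↔ f ∈ S.m ^ n := by
  rw [S.mem_pow_iff]
  constructor
  · intro h i hi
    have := congr_fun h ⟨i, hi⟩
    rwa [jet_apply] at this
  · intro h
    funext i
    rw [jet_apply]
    exact h i i.2

lemma jet_surjective (n : ℕ) : Function.Surjective (S.jet n) := by
  intro v
  obtain ⟨f, hf⟩ := S.exists_jets n (fun k => if h : k < n then v ⟨k, h⟩ else 0)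
  refine ⟨f, ?_⟩
  funext i
  rw [jet_apply, hf i i.2, dif_pos i.2]

theorem span_eq_pow (n : ℕ) (f : R) (hf : f ∈ S.m ^ n)
    [Module.Finite K (R ⧸ Ideal.span ({f} : Set R))]
    (hfin : Module.finrank K (R ⧸ Ideal.span ({f} : Set R)) ≤ n) :
    Ideal.span ({f} : Set R) = S.m ^ n := by
  have hle : Ideal.span ({f} : Set R) ≤ S.m ^ n := (Ideal.span_singleton_le_iff_mem _).mpr hf
  refine le_antisymm hle ?_
  intro g hg
  by_contra hgn
  obtain ⟨σ, hσ⟩ := (S.jet n).exists_rightInverse_of_surjective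
    (LinearMap.range_eq_top.mpr (S.jet_surjective n))
  let Φ : ((Fin n → K) × K) →ₗ[K] (R ⧸ Ideal.span ({f} : Set R)) :=
    (Ideal.Quotient.mkₐ K (Ideal.span ({f} : Set R))).toLinearMap ∘ₗ
      (σ.coprod (LinearMap.toSpanSingleton K R g))
  have hΦ : ∀ v c, Φ (v, c) = Ideal.Quotient.mk _ (σ v + c • g) := by
    intro v c
    simp [Φ, LinearMap.coprod_apply, LinearMap.toSpanSingleton_apply]
  have hinj : Function.Injective Φ := by
    rw [← LinearMap.ker_eq_bot, LinearMap.ker_eq_bot']
    rintro ⟨v, c⟩ h0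
    rw [hΦ, Ideal.Quotient.eq_zero_iff_mem] at h0
    have h1 : σ v + c • g ∈ S.m ^ n := hle h0
    have h2 : S.jet n (σ v + c • g) = 0 := (S.jet_eq_zero_iff n _).mpr h1
    rw [map_add, map_smul, (S.jet_eq_zero_iff n g).mpr hg, smul_zero, add_zero] at h2
    have h3 : S.jet n (σ v) = v := by
      have := congr_arg (fun L : (Fin n → K) →ₗ[K] (Fin n → K) => L v) hσ
      simpa using this
    rw [h3] at h2
    subst h2
    rw [map_zero, zero_add] at h0
    have hc : c = 0 := by
      by_contra hc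
      apply hgn
      have : g = c⁻¹ • (c • g) := by rw [smul_smul, inv_mul_cancel₀ hc, one_smul]
      rw [this]
      exact Submodule.smul_of_tower_mem _ _ h0
    rw [hc]
    rfl
  have := LinearMap.finrank_le_finrank_of_injective hinj
  rw [Module.finrank_prod, Module.finrank_fin_fun, Module.finrank_self] at this
  omega

end Datum

end Fermat.Agent.Lib.TorsionExists.Local
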