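/-
Existence of a nonzero `n`-torsion point on an elliptic curve over an algebraically closed field
of characteristic zero, for every `n ≥ 2` (helper43).  Part 10: assembly.

Proof: the Wronskian of the monomial basis of `L(n·O)` with respect to the invariant derivation
has pole order `n² - 1 > 0`, so it vanishes at some affine point `P`; there some nonzero
`f ∈ L(n·O)` vanishes to order `≥ n`; comparing `dim R/(f) ≤ n` with `dim R/m_Pⁿ = n` gives
`(f) = m_Pⁿ`, i.e. `n • P = 0` in the class group, hence on the curve.
-/
import Fermat.Agent.Lib.TorsionExists.Datum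
import Fermat.Agent.Lib.TorsionExists.LocalCount

set_option autoImplicit false
set_option linter.unusedSimpArgs false
set_option linter.style.haveILetI false

namespace Fermat.Agent.Lib.TorsionExists

open Polynomial WeierstrassCurve WeierstrassCurve.Affine
open scoped Polynomial.Bivariate

variable {K : Type*} [Field K] (W : Affine K)

lemma natDegree_norm_le (f : W.CoordinateRing) (n : ℕ) (hf : (sym W f).natDegree ≤ n) :
    (Algebra.norm K[X] f).natDegree ≤ n := by
  have ha := two_mul_natDegree_cA_le W f
  have hb := two_mul_natDegree_cB_add_three_le W f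
  have hnorm : Algebra.norm K[X] f =
      cA W f ^ 2 - cA W f * cB W f * (C W.a₁ * X + C W.a₃) -
        cB W f ^ 2 * (X ^ 3 + C W.a₂ * X ^ 2 + C W.a₄ * X + C W.a₆) := by
    conv_lhs => rw [← ofAB_cA_cB W f]
    exact CoordinateRing.norm_smul_basis (W' := W) (cA W f) (cB W f)
  rw [hnorm]
  have hlin : (C W.a₁ * X + C W.a₃ : K[X]).natDegree ≤ 1 := by compute_degree
  have hcub : (X ^ 3 + C W.a₂ * X ^ 2 + C W.a₄ * X + C W.a₆ : K[X]).natDegree ≤ 3 := by
    compute_degree
  have t1 : (cA W f ^ 2).natDegree ≤ n := by
    by_cases h : cA W f = 0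
    · simp [h]
    · have := ha h
      exact (natDegree_pow_le).trans (by omega)
  have t2 : (cA W f * cB W f * (C W.a₁ * X + C W.a₃)).natDegree ≤ n := by
    by_cases h : cA W f = 0
    · simp [h]
    · by_cases h' : cB W f = 0
      · simp [h']
      · have := ha h
        have := hb h'
        refine natDegree_mul_le.trans ?_
        have := natDegree_mul_le (p := cA W f) (q := cB W f)
        omega
  have t3 : (cB W f ^ 2 * (X ^ 3 + C W.a₂ * X ^ 2 + C W.a₄ * X + C W.a₆)).natDegree ≤ n := by
    by_cases h' : cB W f = 0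
    · simp [h']
    · have := hb h'
      refine natDegree_mul_le.trans ?_
      have := natDegree_pow_le (p := cB W f) (n := 2)
      omega
  exact (natDegree_sub_le _ _).trans (max_le ((natDegree_sub_le _ _).trans (max_le t1 t2)) t3)

lemma finite_quotient_span (f : W.CoordinateRing) (hf : f ≠ 0) :
    Module.Finite K (W.CoordinateRing ⧸ Ideal.span ({f} : Set W.CoordinateRing)) := by
  have hI : Ideal.span ({f} : Set W.CoordinateRing) ≠ ⊥ := Ideal.span_singleton_eq_bot.not.2 hf
  exact Module.Finite.equiv (Ideal.quotientEquivDirectSum K (CoordinateRing.basis W) hI).symm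


/-- The jets of the monomial combination `∑ c_j e_j` are given by the evaluated Wronskian matrix. -/
lemma evP_iterate_D_sum {x y : K} (h : W.Equation x y) (n : ℕ) (c : Fin n → K) (i : Fin n) :
    evP W h (((Dlin W) ^ (i : ℕ)) (∑ j : Fin n, c j • eW W (wt j))) =
      (((evP W h : W.CoordinateRing →+* K).mapMatrix (wrM W n)).mulVec c) i := by
  rw [map_sum, map_sum, Matrix.mulVec, dotProduct]
  refine Finset.sum_congr rfl fun j _ => ?_
  rw [map_smul, map_smul, smul_eq_mul, mul_comm, Module.End.pow_apply]
  rfl

lemma sym_sum_eW (n : ℕ) (c : Fin n → K) :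
    sym W (∑ j : Fin n, c j • eW W (wt j)) = ∑ j : Fin n, C (c j) * X ^ (wt j) := by
  rw [sym_sum]
  refine Finset.sum_congr rfl fun j _ => ?_
  rw [sym_smul, sym_eW W _ (wt_ne_one _)]

/-- **Existence of torsion.**  On an elliptic curve over an algebraically closed field of
characteristic zero there is, for every `n ≥ 2`, a nonzero point killed by `n`. -/
theorem exists_nsmul_eq_zero [IsAlgClosed K] [CharZero K] [DecidableEq K] [W.IsElliptic]
    (n : ℕ) (hn : 2 ≤ n) : ∃ P : W.Point, P ≠ 0 ∧ n • P = 0 := by
  -- a point where the Wronskian vanishes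
  obtain ⟨I, hI, hle⟩ := Ideal.exists_le_maximal (Ideal.span {wr W n})
    (by rw [Ne, Ideal.span_singleton_eq_top]; exact wr_not_isUnit W hn)
  obtain ⟨x, y, heq, rfl⟩ := exists_point_of_isMaximal W I hI
  have hns : W.Nonsingular x y := (equation_iff_nonsingular).mp heq
  obtain ⟨S, hSev, hSD⟩ := exists_datum W hns
  have hm : S.m = CoordinateRing.XYIdeal W x (C y) := by
    rw [Local.Datum.m, hSev, ker_evP]
  have hwr0 : evP W heq (wr W n) = 0 := by
    rw [← RingHom.mem_ker, ker_evP]
    exact hle (Ideal.subset_span rfl)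
  -- a nonzero vector in the kernel of the evaluated Wronskian matrix
  have hdet : ((evP W heq : W.CoordinateRing →+* K).mapMatrix (wrM W n)).det = 0 := by
    rw [← RingHom.map_det]
    exact hwr0
  obtain ⟨c, hc0, hc⟩ := Matrix.exists_mulVec_eq_zero_iff.mpr hdet
  set f : W.CoordinateRing := ∑ j : Fin n, c j • eW W (wt j) with hf
  -- `f` vanishes to order `n` at the point
  have hjets : ∀ i < n, S.ev ((S.D ^ i) f) = 0 := by
    intro i hi
    rw [hSev, hSD]
    have := evP_iterate_D_sum W heq n c ⟨i, hi⟩
    rw [hc] at this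
    exact this
  have hfmem : f ∈ S.m ^ n := S.mem_pow_of_jets n hjets
  -- `f ≠ 0` of pole order at most `n`
  have hsym : sym W f = ∑ j : Fin n, C (c j) * X ^ (wt j) := sym_sum_eW W n c
  have hf0 : f ≠ 0 := by
    obtain ⟨j0, hj0⟩ := Function.ne_iff.mp hc0
    intro h0
    have h1 : (sym W f).coeff (wt j0) = c j0 := by
      rw [hsym, finsetSum_coeff]
      rw [Finset.sum_eq_single j0]
      · rw [coeff_C_mul, coeff_X_pow, if_pos rfl, mul_one]
      · intro j _ hj
        rw [coeff_C_mul, coeff_X_pow, if_neg, mul_zero]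
        intro hw
        exact hj (Fin.ext (wt_injective hw)).symm
      · intro hj; exact absurd (Finset.mem_univ _) hj
    rw [h0, sym_zero, coeff_zero] at h1
    exact hj0 h1.symm
  have hdeg : (sym W f).natDegree ≤ n := by
    rw [hsym]
    refine natDegree_sum_le_of_forall_le _ _ fun j _ => ?_
    refine (natDegree_C_mul_le _ _).trans ((natDegree_X_pow_le _).trans (wt_le j.2))
  haveI := finite_quotient_span W f hf0
  have hfin : Module.finrank K (W.CoordinateRing ⧸ Ideal.span ({f} : Set W.CoordinateRing)) ≤ n := by
    rw [finrank_quotient_span_eq_natDegree_norm (CoordinateRing.basis W) hf0]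
    exact natDegree_norm_le W f n hdeg
  have hspan := S.span_eq_pow n f hfmem hfin
  rw [hm] at hspan
  -- conclusion in the class group
  refine ⟨.some x y hns, Point.some_ne_zero hns, ?_⟩
  apply Point.toClass_injective
  rw [map_nsmul, Point.toClass_some, map_zero]
  have hpow : ((CoordinateRing.XYIdeal' (W := W) hns ^ n :
      (FractionalIdeal (nonZeroDivisors W.CoordinateRing) W.FunctionField)ˣ) :
      FractionalIdeal (nonZeroDivisors W.CoordinateRing) W.FunctionField) =
      ((CoordinateRing.XYIdeal W x (C y) ^ n : Ideal W.CoordinateRing) :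
        FractionalIdeal (nonZeroDivisors W.CoordinateRing) W.FunctionField) := by
    rw [Units.val_pow_eq_pow_val, CoordinateRing.XYIdeal'_eq, FractionalIdeal.coeIdeal_pow]
  have := (ClassGroup.mk_eq_one_of_coe_ideal hpow).mpr ⟨f, hf0, hspan.symm⟩
  rw [map_pow] at this
  exact this

end Fermat.Agent.Lib.TorsionExists
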