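/-
Existence of a nonzero `n`-torsion point (helper43).  Part 11: corollaries in the shapes used for
Galois representations on torsion points (`Submodule.torsionBy ℤ (W⁄K).Point n`).
-/
import Fermat.Agent.Lib.TorsionExists.Main

set_option autoImplicit false

namespace Fermat.Agent.Lib.TorsionExists

open WeierstrassCurve WeierstrassCurve.Affine

variable {K : Type*} [Field K] [IsAlgClosed K] [CharZero K] [DecidableEq K]

/-- Version with the hypothesis `Δ ≠ 0` instead of the `IsElliptic` instance. -/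
theorem exists_nsmul_eq_zero_of_Δ_ne_zero (W : Affine K) (hΔ : W.Δ ≠ 0) (n : ℕ) (hn : 2 ≤ n) :
    ∃ P : W.Point, P ≠ 0 ∧ n • P = 0 := by
  have : W.IsElliptic := ⟨isUnit_iff_ne_zero.mpr hΔ⟩
  exact exists_nsmul_eq_zero W n hn

/-- The `n`-torsion subgroup of an elliptic curve over an algebraically closed field of
characteristic zero is nontrivial (`n ≥ 2`). -/
theorem nontrivial_torsionBy (W : Affine K) (hΔ : W.Δ ≠ 0) (n : ℕ) (hn : 2 ≤ n) :
    Nontrivial (Submodule.torsionBy ℤ W.Point n) := by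
  obtain ⟨P, hP0, hP⟩ := exists_nsmul_eq_zero_of_Δ_ne_zero W hΔ n hn
  refine ⟨⟨⟨P, ?_⟩, 0, ?_⟩⟩
  · rw [Submodule.mem_torsionBy_iff, Nat.cast_smul_eq_nsmul]
    exact hP
  · intro h
    exact hP0 (congr_arg Subtype.val h)

/-- Base-change version: `W'` over a subfield `F`, points over `K`. -/
theorem nontrivial_torsionBy_baseChange {F : Type*} [Field F] [Algebra F K] (W' : Affine F)
    (hΔ : W'.Δ ≠ 0) (n : ℕ) (hn : 2 ≤ n) :
    Nontrivial (Submodule.torsionBy ℤ (W'⁄K).Point n) := by
  refine nontrivial_torsionBy _ ?_ n hn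
  show (WeierstrassCurve.map W' (algebraMap F K)).Δ ≠ 0
  rw [WeierstrassCurve.map_Δ]
  exact (map_ne_zero _).mpr hΔ

end Fermat.Agent.Lib.TorsionExists
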