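/-
Existence of a nonzero `p`-torsion point (helper43).  Part 2: the pole-order symbol
`sym f = a(t²) + b(t²) t³` of `f = a + bY`, its multiplicativity up to lower order terms.
-/
import Fermat.Agent.Lib.TorsionExists.Basic

set_option autoImplicit false

namespace Fermat.Agent.Lib.TorsionExists

open Polynomial WeierstrassCurve WeierstrassCurve.Affine
open scoped Polynomial.Bivariate

variable {K : Type*} [Field K] (W : Affine K)

/-- The symbol `a(t²) + b(t²)t³` of `f = a + bY`; its degree is the pole order of `f` at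
infinity. -/
noncomputable def sym (f : W.CoordinateRing) : K[X] :=
  expand K 2 (cA W f) + expand K 2 (cB W f) * X ^ 3

lemma sym_ofAB (a b : K[X]) : sym W (ofAB W a b) = expand K 2 a + expand K 2 b * X ^ 3 := by
  simp [sym]

lemma sym_add (f g : W.CoordinateRing) : sym W (f + g) = sym W f + sym W g := by
  simp only [sym, cA_add, cB_add, map_add]; ring

lemma sym_zero : sym W 0 = 0 := by
  have := sym_add W 0 0
  simpa using this

lemma sym_smul (r : K) (f : W.CoordinateRing) : sym W (r • f) = C r * sym W f := by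
  conv_lhs => rw [← ofAB_cA_cB W f, ofAB_smul, sym_ofAB]
  simp only [sym, map_mul, expand_C]; ring

lemma sym_neg (f : W.CoordinateRing) : sym W (-f) = - sym W f := by
  have := sym_smul W (-1) f
  simpa using this

lemma sym_sub (f g : W.CoordinateRing) : sym W (f - g) = sym W f - sym W g := by
  rw [sub_eq_add_neg, sym_add, sym_neg, sub_eq_add_neg]

lemma sym_sum {ι : Type*} (s : Finset ι) (f : ι → W.CoordinateRing) :
    sym W (∑ i ∈ s, f i) = ∑ i ∈ s, sym W (f i) := by
  classical
  induction s using Finset.induction_on with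
  | empty => simp [sym_zero]
  | insert a s ha ih => rw [Finset.sum_insert ha, Finset.sum_insert ha, sym_add, ih]

lemma coeff_expand_two_odd (p : K[X]) (i : ℕ) : (expand K 2 p).coeff (2 * i + 1) = 0 := by
  rw [coeff_expand (by norm_num), if_neg]
  omega

lemma coeff_sym_even (f : W.CoordinateRing) (i : ℕ) :
    (sym W f).coeff (2 * i) = (cA W f).coeff i := by
  rw [sym, coeff_add, coeff_expand_mul' (by norm_num), coeff_mul_X_pow']
  split_ifs with h
  · obtain ⟨j, rfl⟩ : ∃ j, i = j + 2 := ⟨i - 2, by omega⟩
    have : 2 * (j + 2) - 3 = 2 * j + 1 := by omega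
    rw [this, coeff_expand_two_odd, add_zero]
  · rw [add_zero]

lemma coeff_sym_odd (f : W.CoordinateRing) (i : ℕ) :
    (sym W f).coeff (2 * i + 3) = (cB W f).coeff i := by
  rw [sym, coeff_add, coeff_mul_X_pow, coeff_expand_mul' (by norm_num)]
  have : 2 * i + 3 = 2 * (i + 1) + 1 := by ring
  rw [this, coeff_expand_two_odd, zero_add]

lemma coeff_sym_one (f : W.CoordinateRing) : (sym W f).coeff 1 = 0 := by
  rw [sym, coeff_add, coeff_mul_X_pow', if_neg (by norm_num), add_zero]
  exact coeff_expand_two_odd (cA W f) 0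

lemma sym_eq_zero_iff (f : W.CoordinateRing) : sym W f = 0 ↔ f = 0 := by
  constructor
  · intro h
    have ha : cA W f = 0 := by
      ext i
      rw [← coeff_sym_even, h, coeff_zero, coeff_zero]
    have hb : cB W f = 0 := by
      ext i
      rw [← coeff_sym_odd, h, coeff_zero, coeff_zero]
    rw [← ofAB_cA_cB W f, ha, hb, ofAB_zero]
  · rintro rfl
    exact sym_zero W

lemma two_mul_natDegree_cA_le (f : W.CoordinateRing) (h : cA W f ≠ 0) :
    2 * (cA W f).natDegree ≤ (sym W f).natDegree := by
  apply le_natDegree_of_ne_zero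
  rw [coeff_sym_even]
  exact leadingCoeff_ne_zero.mpr h

lemma two_mul_natDegree_cB_add_three_le (f : W.CoordinateRing) (h : cB W f ≠ 0) :
    2 * (cB W f).natDegree + 3 ≤ (sym W f).natDegree := by
  apply le_natDegree_of_ne_zero
  rw [coeff_sym_odd]
  exact leadingCoeff_ne_zero.mpr h

lemma natDegree_sym_le (f : W.CoordinateRing) (n : ℕ)
    (ha : cA W f ≠ 0 → 2 * (cA W f).natDegree ≤ n)
    (hb : cB W f ≠ 0 → 2 * (cB W f).natDegree + 3 ≤ n) : (sym W f).natDegree ≤ n := by
  rw [sym]
  refine (natDegree_add_le _ _).trans (max_le ?_ ?_)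
  · by_cases h : cA W f = 0
    · simp [h]
    · rw [natDegree_expand]
      have := ha h
      omega
  · by_cases h : cB W f = 0
    · simp [h]
    · refine (natDegree_mul_le).trans ?_
      rw [natDegree_expand, natDegree_X_pow]
      have := hb h
      omega

/-- The error term of multiplicativity of the symbol. -/
noncomputable def symE : K[X] := expand K 2 (cub W) - expand K 2 (lin W) * X ^ 3 - X ^ 6

lemma symE_eq : symE W =
    C W.a₂ * X ^ 4 + C W.a₄ * X ^ 2 + C W.a₆ - C W.a₁ * X ^ 5 - C W.a₃ * X ^ 3 := by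
  simp only [symE, cub, lin, map_add, map_mul, map_pow, expand_C, expand_X]
  ring

lemma natDegree_symE_le : (symE W).natDegree ≤ 5 := by
  rw [symE_eq]
  compute_degree

lemma sym_mul (f g : W.CoordinateRing) :
    sym W (f * g) = sym W f * sym W g + expand K 2 (cB W f * cB W g) * symE W := by
  conv_lhs => rw [← ofAB_cA_cB W f, ← ofAB_cA_cB W g, ofAB_mul, sym_ofAB]
  simp only [sym, symE, map_add, map_sub, map_mul]
  ring

lemma natDegree_sym_mul_sub_lt (f g : W.CoordinateRing) {m n : ℕ}
    (hf : (sym W f).natDegree ≤ m) (hg : (sym W g).natDegree ≤ n)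
    (hne : cB W f * cB W g ≠ 0) :
    (expand K 2 (cB W f * cB W g) * symE W).natDegree < m + n := by
  have hbf : cB W f ≠ 0 := left_ne_zero_of_mul hne
  have hbg : cB W g ≠ 0 := right_ne_zero_of_mul hne
  have h1 := two_mul_natDegree_cB_add_three_le W f hbf
  have h2 := two_mul_natDegree_cB_add_three_le W g hbg
  have h3 : (expand K 2 (cB W f * cB W g) * symE W).natDegree ≤
      (cB W f * cB W g).natDegree * 2 + 5 := by
    refine natDegree_mul_le.trans ?_
    rw [natDegree_expand]
    have := natDegree_symE_le W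
    omega
  have h4 : (cB W f * cB W g).natDegree = (cB W f).natDegree + (cB W g).natDegree :=
    natDegree_mul hbf hbg
  omega

/-- Symbols multiply: degree bound. -/
lemma natDegree_sym_mul_le (f g : W.CoordinateRing) {m n : ℕ}
    (hf : (sym W f).natDegree ≤ m) (hg : (sym W g).natDegree ≤ n) :
    (sym W (f * g)).natDegree ≤ m + n := by
  rw [sym_mul]
  refine (natDegree_add_le _ _).trans (max_le ?_ ?_)
  · exact natDegree_mul_le.trans (by omega)
  · by_cases hne : cB W f * cB W g = 0
    · simp [hne]
    · exact (natDegree_sym_mul_sub_lt W f g hf hg hne).le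

/-- Symbols multiply: top coefficient. -/
lemma coeff_sym_mul (f g : W.CoordinateRing) {m n : ℕ}
    (hf : (sym W f).natDegree ≤ m) (hg : (sym W g).natDegree ≤ n) :
    (sym W (f * g)).coeff (m + n) = (sym W f).coeff m * (sym W g).coeff n := by
  rw [sym_mul, coeff_add, coeff_mul_add_eq_of_natDegree_le hf hg]
  by_cases hne : cB W f * cB W g = 0
  · simp [hne]
  · rw [coeff_eq_zero_of_natDegree_lt (natDegree_sym_mul_sub_lt W f g hf hg hne), add_zero]

end Fermat.Agent.Lib.TorsionExists
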