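/-
Existence of a nonzero `p`-torsion point (helper43).  Part 3: the invariant derivation `D` of the
coordinate ring (`D X = 2Y + a₁X + a₃`, `D Y = 3X² + 2a₂X + a₄ - a₁Y`) and its effect on symbols.
-/
import Fermat.Agent.Lib.TorsionExists.Sym

set_option autoImplicit false

namespace Fermat.Agent.Lib.TorsionExists

open Polynomial WeierstrassCurve WeierstrassCurve.Affine
open scoped Polynomial.Bivariate

variable {K : Type*} [Field K] (W : Affine K)

/-- The invariant derivation on coordinates. -/
noncomputable def DAB (a b : K[X]) : W.CoordinateRing :=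
  ofAB W (derivative a * lin W + 2 * derivative b * cub W + b * derivative (cub W))
    (2 * derivative a - derivative b * lin W - C W.a₁ * b)

/-- The invariant derivation `D` of the coordinate ring. -/
noncomputable def D (f : W.CoordinateRing) : W.CoordinateRing := DAB W (cA W f) (cB W f)

lemma D_ofAB (a b : K[X]) : D W (ofAB W a b) = DAB W a b := by simp [D]

lemma derivative_lin : derivative (lin W) = C W.a₁ := by
  simp [lin]

lemma D_add (f g : W.CoordinateRing) : D W (f + g) = D W f + D W g := by
  simp only [D, DAB, cA_add, cB_add, ofAB_add, derivative_add]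
  congr 1 <;> ring

lemma D_zero : D W 0 = 0 := by
  have := D_add W 0 0
  simpa using this

lemma D_smul (r : K) (f : W.CoordinateRing) : D W (r • f) = r • D W f := by
  conv_lhs => rw [← ofAB_cA_cB W f, ofAB_smul, D_ofAB]
  simp only [D, DAB, ofAB_smul, derivative_mul, derivative_C, zero_mul, zero_add]
  congr 1 <;> ring

lemma D_neg (f : W.CoordinateRing) : D W (-f) = - D W f := by
  have := D_smul W (-1) f
  simpa using this

lemma D_sub (f g : W.CoordinateRing) : D W (f - g) = D W f - D W g := by
  rw [sub_eq_add_neg, D_add, D_neg, sub_eq_add_neg]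

lemma D_sum {ι : Type*} (s : Finset ι) (f : ι → W.CoordinateRing) :
    D W (∑ i ∈ s, f i) = ∑ i ∈ s, D W (f i) := by
  classical
  induction s using Finset.induction_on with
  | empty => simp [D_zero]
  | insert a s ha ih => rw [Finset.sum_insert ha, Finset.sum_insert ha, D_add, ih]

/-- `D` as a `K`-linear map. -/
noncomputable def Dlin : W.CoordinateRing →ₗ[K] W.CoordinateRing where
  toFun := D W
  map_add' := D_add W
  map_smul' := D_smul W

@[simp] lemma Dlin_apply (f : W.CoordinateRing) : Dlin W f = D W f := rfl

lemma DAB_mul (a b c d : K[X]) :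
    DAB W (a * c + b * d * cub W) (a * d + b * c - b * d * lin W) =
      ofAB W a b * DAB W c d + DAB W a b * ofAB W c d := by
  unfold DAB
  rw [ofAB_mul, ofAB_mul, ofAB_add]
  simp only [derivative_mul, derivative_add, derivative_sub, derivative_lin]
  generalize derivative a = a'
  generalize derivative b = b'
  generalize derivative c = c'
  generalize derivative d = d'
  generalize derivative (cub W) = u'
  generalize cub W = u
  generalize lin W = l
  generalize (C W.a₁ : K[X]) = e
  congr 1 <;> ring

/-- The Leibniz rule. -/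
lemma D_mul (f g : W.CoordinateRing) : D W (f * g) = f * D W g + D W f * g := by
  obtain ⟨a, b, rfl⟩ : ∃ a b, f = ofAB W a b := ⟨_, _, (ofAB_cA_cB W f).symm⟩
  obtain ⟨c, d, rfl⟩ : ∃ c d, g = ofAB W c d := ⟨_, _, (ofAB_cA_cB W g).symm⟩
  rw [ofAB_mul, D_ofAB, D_ofAB, D_ofAB, DAB_mul]

lemma D_one : D W 1 = 0 := by
  have h := D_mul W 1 1
  rw [mul_one, one_mul, mul_one] at h
  have : D W 1 + D W 1 = D W 1 + 0 := by rw [add_zero]; exact h.symm
  exact add_left_cancel this

lemma D_algebraMap (c : K) : D W (algebraMap K W.CoordinateRing c) = 0 := by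
  rw [Algebra.algebraMap_eq_smul_one, D_smul, D_one, smul_zero]

lemma D_pow (f : W.CoordinateRing) (n : ℕ) : D W (f ^ (n + 1)) = (n + 1 : ℕ) • (f ^ n * D W f) := by
  induction n with
  | zero => simp
  | succ n ih =>
    rw [pow_succ, D_mul, ih]
    simp only [nsmul_eq_mul, Nat.cast_add, Nat.cast_one]
    ring

end Fermat.Agent.Lib.TorsionExists
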