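/-
Existence of a nonzero `p`-torsion point (helper43).  Part 4: `D` raises the pole order by one
and multiplies the top coefficient by the pole order.
-/
import Fermat.Agent.Lib.TorsionExists.Deriv

set_option autoImplicit false

namespace Fermat.Agent.Lib.TorsionExists

open Polynomial WeierstrassCurve WeierstrassCurve.Affine
open scoped Polynomial.Bivariate

variable {K : Type*} [Field K] (W : Affine K)

/-- `expand (a₁X + a₃)`. -/
noncomputable def eL : K[X] := expand K 2 (lin W)

/-- `expand cub - X⁶`. -/
noncomputable def eC : K[X] := expand K 2 (cub W) - X ^ 6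

/-- `expand cub' - 3X⁴`. -/
noncomputable def eC' : K[X] := expand K 2 (derivative (cub W)) - C 3 * X ^ 4

lemma eL_eq : eL W = C W.a₁ * X ^ 2 + C W.a₃ := by
  simp [eL, lin]

lemma eC_eq : eC W = C W.a₂ * X ^ 4 + C W.a₄ * X ^ 2 + C W.a₆ := by
  simp only [eC, cub, map_add, map_mul, map_pow, expand_C, expand_X]
  ring

lemma eC'_eq : eC' W = C (2 * W.a₂) * X ^ 2 + C W.a₄ := by
  simp only [eC', cub, derivative_add, derivative_mul, derivative_C, derivative_X_pow,
    derivative_X, map_add, map_mul, map_pow, expand_C, expand_X, map_natCast]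
  simp only [C_mul, C_ofNat]
  ring_nf
  simp

lemma natDegree_eL_le : (eL W).natDegree ≤ 2 := by rw [eL_eq]; compute_degree
lemma natDegree_eC_le : (eC W).natDegree ≤ 4 := by rw [eC_eq]; compute_degree
lemma natDegree_eC'_le : (eC' W).natDegree ≤ 2 := by rw [eC'_eq]; compute_degree

/-- The lower order part of `sym (D f)`. -/
noncomputable def errD (a b : K[X]) : K[X] :=
  expand K 2 (derivative a) * eL W + C 2 * (expand K 2 (derivative b) * eC W) +
    expand K 2 b * eC' W - expand K 2 (derivative b) * (eL W * X ^ 3) -
    C W.a₁ * (expand K 2 b * X ^ 3)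

lemma sym_DAB (a b : K[X]) :
    sym W (DAB W a b) =
      X ^ 2 * derivative (expand K 2 a + expand K 2 b * X ^ 3) + errD W a b := by
  rw [DAB, sym_ofAB]
  simp only [errD, eL, eC, eC', derivative_add, derivative_mul, derivative_expand,
    derivative_X_pow, map_add, map_sub, map_mul, expand_C, map_ofNat]
  simp only [Nat.cast_ofNat, Nat.add_one_sub_one, pow_one, C_ofNat]
  ring

lemma natDegree_expand_derivative_mul_le (p q : K[X]) (k : ℕ) (hq : q.natDegree ≤ k)
    (hk : 2 ≤ k) : (expand K 2 (derivative p) * q).natDegree ≤ 2 * p.natDegree + (k - 2) := by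
  by_cases h0 : derivative p = 0
  · simp [h0]
  · have h1 : 1 ≤ p.natDegree := by
      by_contra hcon
      have : p.natDegree = 0 := by omega
      rw [eq_C_of_natDegree_eq_zero this, derivative_C] at h0
      exact h0 rfl
    have h2 := natDegree_derivative_le p
    refine natDegree_mul_le.trans ?_
    rw [natDegree_expand]
    omega

lemma natDegree_errD_le (a b : K[X]) (n : ℕ) (ha : a ≠ 0 → 2 * a.natDegree ≤ n)
    (hb : b ≠ 0 → 2 * b.natDegree + 3 ≤ n) : (errD W a b).natDegree ≤ n := by
  have t1 : (expand K 2 (derivative a) * eL W).natDegree ≤ n := by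
    by_cases h : a = 0
    · simp [h]
    · have := natDegree_expand_derivative_mul_le a (eL W) 2 (natDegree_eL_le W) le_rfl
      have := ha h
      omega
  have t2 : (C 2 * (expand K 2 (derivative b) * eC W)).natDegree ≤ n := by
    by_cases h : b = 0
    · simp [h]
    · have := natDegree_expand_derivative_mul_le b (eC W) 4 (natDegree_eC_le W) (by norm_num)
      have := hb h
      refine (natDegree_C_mul_le _ _).trans ?_
      omega
  have t3 : (expand K 2 b * eC' W).natDegree ≤ n := by
    by_cases h : b = 0
    · simp [h]
    · refine natDegree_mul_le.trans ?_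
      rw [natDegree_expand]
      have := natDegree_eC'_le W
      have := hb h
      omega
  have t4 : (expand K 2 (derivative b) * (eL W * X ^ 3)).natDegree ≤ n := by
    by_cases h : b = 0
    · simp [h]
    · have h5 : (eL W * X ^ 3).natDegree ≤ 5 := by
        refine natDegree_mul_le.trans ?_
        rw [natDegree_X_pow]
        have := natDegree_eL_le W
        omega
      have := natDegree_expand_derivative_mul_le b (eL W * X ^ 3) 5 h5 (by norm_num)
      have := hb h
      omega
  have t5 : (C W.a₁ * (expand K 2 b * X ^ 3)).natDegree ≤ n := by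
    by_cases h : b = 0
    · simp [h]
    · refine (natDegree_C_mul_le _ _).trans (natDegree_mul_le.trans ?_)
      rw [natDegree_expand, natDegree_X_pow]
      have := hb h
      omega
  unfold errD
  refine (natDegree_sub_le _ _).trans (max_le ?_ t5)
  refine (natDegree_sub_le _ _).trans (max_le ?_ t4)
  refine (natDegree_add_le _ _).trans (max_le ?_ t3)
  exact (natDegree_add_le _ _).trans (max_le t1 t2)

lemma sym_D (f : W.CoordinateRing) :
    sym W (D W f) = X ^ 2 * derivative (sym W f) + errD W (cA W f) (cB W f) := by
  rw [D, sym_DAB, sym]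

lemma natDegree_errD_le' (f : W.CoordinateRing) (n : ℕ) (hf : (sym W f).natDegree ≤ n) :
    (errD W (cA W f) (cB W f)).natDegree ≤ n :=
  natDegree_errD_le W _ _ n
    (fun h => (two_mul_natDegree_cA_le W f h).trans hf)
    (fun h => (two_mul_natDegree_cB_add_three_le W f h).trans hf)

/-- `D` raises the pole order by at most one. -/
lemma natDegree_sym_D_le (f : W.CoordinateRing) (n : ℕ) (hf : (sym W f).natDegree ≤ n) :
    (sym W (D W f)).natDegree ≤ n + 1 := by
  rw [sym_D]
  refine (natDegree_add_le _ _).trans (max_le ?_ ((natDegree_errD_le' W f n hf).trans (by omega)))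
  have := natDegree_derivative_le (sym W f)
  by_cases h0 : derivative (sym W f) = 0
  · simp [h0]
  · refine natDegree_mul_le.trans ?_
    rw [natDegree_X_pow]
    have h1 : 1 ≤ (sym W f).natDegree := by
      by_contra hcon
      have : (sym W f).natDegree = 0 := by omega
      rw [eq_C_of_natDegree_eq_zero this, derivative_C] at h0
      exact h0 rfl
    omega

/-- `D` multiplies the top coefficient by the pole order. -/
lemma coeff_sym_D (f : W.CoordinateRing) (n : ℕ) (hf : (sym W f).natDegree ≤ n) :
    (sym W (D W f)).coeff (n + 1) = (n : K) * (sym W f).coeff n := by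
  rw [sym_D, coeff_add,
    coeff_eq_zero_of_natDegree_lt (lt_of_le_of_lt (natDegree_errD_le' W f n hf) (Nat.lt_succ_self n)),
    add_zero, mul_comm, coeff_mul_X_pow']
  rcases n with _ | n
  · simp
  · rw [if_pos (by omega)]
    have : n + 1 + 1 - 2 = n := by omega
    rw [this, coeff_derivative]
    push_cast
    ring

end Fermat.Agent.Lib.TorsionExists
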