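/-
Existence of a nonzero `p`-torsion point (helper43).  Part 5: symbols of products and of
determinants.
-/
import Fermat.Agent.Lib.TorsionExists.DerivSym

set_option autoImplicit false

namespace Fermat.Agent.Lib.TorsionExists

open Polynomial WeierstrassCurve WeierstrassCurve.Affine
open scoped Polynomial.Bivariate

variable {K : Type*} [Field K] (W : Affine K)

lemma ofAB_one_zero : ofAB W 1 0 = 1 := by simp [ofAB]

lemma sym_one : sym W 1 = 1 := by
  rw [← ofAB_one_zero, sym_ofAB]; simp

lemma sym_algebraMap_mul (c : K) (g : W.CoordinateRing) :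
    sym W (algebraMap K W.CoordinateRing c * g) = C c * sym W g := by
  rw [← Algebra.smul_def, sym_smul]

lemma sym_prod_aux {ι : Type*} (s : Finset ι) (f : ι → W.CoordinateRing) (d : ι → ℕ)
    (h : ∀ i ∈ s, (sym W (f i)).natDegree ≤ d i) :
    (sym W (∏ i ∈ s, f i)).natDegree ≤ ∑ i ∈ s, d i ∧
      (sym W (∏ i ∈ s, f i)).coeff (∑ i ∈ s, d i) = ∏ i ∈ s, (sym W (f i)).coeff (d i) := by
  classical
  induction s using Finset.induction_on with
  | empty => simp [sym_one]
  | insert a s ha ih =>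
    have h1 := h a (Finset.mem_insert_self a s)
    obtain ⟨h2, h3⟩ := ih (fun i hi => h i (Finset.mem_insert_of_mem hi))
    rw [Finset.prod_insert ha, Finset.sum_insert ha, Finset.prod_insert ha]
    exact ⟨natDegree_sym_mul_le W _ _ h1 h2, by rw [coeff_sym_mul W _ _ h1 h2, h3]⟩

lemma sym_det_aux {n : ℕ} (M : Matrix (Fin n) (Fin n) W.CoordinateRing) (r s : Fin n → ℕ)
    (h : ∀ i j, (sym W (M i j)).natDegree ≤ r i + s j) :
    (sym W M.det).natDegree ≤ ∑ i, r i + ∑ j, s j ∧
      (sym W M.det).coeff (∑ i, r i + ∑ j, s j) =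
        (Matrix.of fun i j => (sym W (M i j)).coeff (r i + s j)).det := by
  have hT : ∀ σ : Equiv.Perm (Fin n), ∑ i, (r (σ i) + s i) = ∑ i, r i + ∑ j, s j := by
    intro σ
    rw [Finset.sum_add_distrib, Equiv.sum_comp σ r]
  have hterm : ∀ σ : Equiv.Perm (Fin n),
      (sym W (∏ i, M (σ i) i)).natDegree ≤ ∑ i, r i + ∑ j, s j ∧
      (sym W (∏ i, M (σ i) i)).coeff (∑ i, r i + ∑ j, s j) =
        ∏ i, (sym W (M (σ i) i)).coeff (r (σ i) + s i) := by
    intro σ
    have := sym_prod_aux W Finset.univ (fun i => M (σ i) i) (fun i => r (σ i) + s i)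
      (fun i _ => h (σ i) i)
    rw [hT σ] at this
    exact this
  have hsym : sym W M.det =
      ∑ σ : Equiv.Perm (Fin n), C ((Equiv.Perm.sign σ : ℤ) : K) * sym W (∏ i, M (σ i) i) := by
    rw [Matrix.det_apply', sym_sum]
    refine Finset.sum_congr rfl fun σ _ => ?_
    rw [← sym_algebraMap_mul, map_intCast]
  constructor
  · rw [hsym]
    refine natDegree_sum_le_of_forall_le _ _ fun σ _ => ?_
    exact (natDegree_C_mul_le _ _).trans (hterm σ).1
  · rw [hsym, finsetSum_coeff, Matrix.det_apply']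
    refine Finset.sum_congr rfl fun σ _ => ?_
    rw [coeff_C_mul, (hterm σ).2]
    rfl

end Fermat.Agent.Lib.TorsionExists
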