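/-
Existence of a nonzero `p`-torsion point (helper43).  Part 6: the Wronskian of the monomial basis
of `L(n·O)` with respect to `D` has pole order `n² - 1`, in particular it is not a unit.
-/
import Fermat.Agent.Lib.TorsionExists.DetSym

set_option autoImplicit false

namespace Fermat.Agent.Lib.TorsionExists

open Polynomial WeierstrassCurve WeierstrassCurve.Affine
open scoped Polynomial.Bivariate

variable {K : Type*} [Field K] (W : Affine K)

/-- The pole orders `0, 2, 3, 4, …` of the monomial basis of the coordinate ring. -/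
def wt (j : ℕ) : ℕ := if j = 0 then 0 else j + 1

lemma wt_injective : Function.Injective wt := by
  intro a b h
  unfold wt at h
  split_ifs at h <;> omega

lemma wt_ne_one (j : ℕ) : wt j ≠ 1 := by
  unfold wt; split_ifs <;> omega

lemma wt_le {n j : ℕ} (h : j < n) : wt j ≤ n := by
  unfold wt; split_ifs <;> omega

/-- The monomial of pole order `m` (`m ≠ 1`): `X^(m/2)` or `X^((m-3)/2) Y`. -/
noncomputable def eW (m : ℕ) : W.CoordinateRing :=
  if Even m then ofAB W (X ^ (m / 2)) 0 else ofAB W 0 (X ^ ((m - 3) / 2))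

lemma sym_eW (m : ℕ) (hm : m ≠ 1) : sym W (eW W m) = X ^ m := by
  unfold eW
  split_ifs with h
  · obtain ⟨k, rfl⟩ := h
    rw [sym_ofAB]
    have : (k + k) / 2 = k := by omega
    simp only [this, map_pow, expand_X, map_zero, zero_mul, add_zero, ← pow_mul]
    try (congr 1; omega)
  · rw [Nat.not_even_iff_odd] at h
    obtain ⟨k, rfl⟩ := h
    obtain ⟨j, rfl⟩ : ∃ j, k = j + 1 := ⟨k - 1, by omega⟩
    rw [sym_ofAB]
    have : (2 * (j + 1) + 1 - 3) / 2 = j := by omega
    simp only [this, map_pow, expand_X, map_zero, zero_add, ← pow_mul, ← pow_add]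
    have h2 : 2 * j + 3 = 2 * (j + 1) + 1 := by omega
    rw [h2]

lemma sym_iterate_D (f : W.CoordinateRing) (w : ℕ) (hf : (sym W f).natDegree ≤ w) (i : ℕ) :
    (sym W ((D W)^[i] f)).natDegree ≤ w + i ∧
      (sym W ((D W)^[i] f)).coeff (w + i) =
        (ascPochhammer K i).eval (w : K) * (sym W f).coeff w := by
  induction i with
  | zero => simp [hf]
  | succ i ih =>
    obtain ⟨h1, h2⟩ := ih
    rw [Function.iterate_succ_apply']
    refine ⟨natDegree_sym_D_le W _ _ h1, ?_⟩
    rw [← add_assoc, coeff_sym_D W _ _ h1, h2, ascPochhammer_succ_eval]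
    push_cast
    ring

/-- The Wronskian matrix of the monomials of pole order `0, 2, 3, …, n`. -/
noncomputable def wrM (n : ℕ) : Matrix (Fin n) (Fin n) W.CoordinateRing :=
  fun i j => (D W)^[(i : ℕ)] (eW W (wt j))

/-- The Wronskian. -/
noncomputable def wr (n : ℕ) : W.CoordinateRing := (wrM W n).det

/-- The pole order `n² - 1` of the Wronskian. -/
def wrT (n : ℕ) : ℕ := ∑ i : Fin n, (i : ℕ) + ∑ j : Fin n, wt j

lemma two_le_wrT {n : ℕ} (hn : 2 ≤ n) : 2 ≤ wrT n := by
  unfold wrT
  have : wt ((⟨1, hn⟩ : Fin n) : ℕ) ≤ ∑ j : Fin n, wt (j : ℕ) :=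
    Finset.single_le_sum (f := fun j : Fin n => wt (j : ℕ)) (fun _ _ => Nat.zero_le _)
      (Finset.mem_univ _)
  have h2 : wt ((⟨1, hn⟩ : Fin n) : ℕ) = 2 := by simp [wt]
  omega

theorem wr_top [CharZero K] (n : ℕ) :
    (sym W (wr W n)).natDegree ≤ wrT n ∧ (sym W (wr W n)).coeff (wrT n) ≠ 0 := by
  have hM : ∀ i j : Fin n, (sym W (wrM W n i j)).natDegree ≤ (i : ℕ) + wt j := by
    intro i j
    have := (sym_iterate_D W (eW W (wt j)) (wt j)
      (by rw [sym_eW W _ (wt_ne_one _)]; exact natDegree_X_pow_le _) i).1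
    rw [add_comm]
    exact this
  obtain ⟨h1, h2⟩ := sym_det_aux W (wrM W n) (fun i => (i : ℕ)) (fun j => wt j) hM
  refine ⟨h1, ?_⟩
  unfold wr wrT
  rw [h2]
  have hA : (Matrix.of fun i j : Fin n => (sym W (wrM W n i j)).coeff ((i : ℕ) + wt j)) =
      (Matrix.of fun i j : Fin n =>
        ((ascPochhammer K (j : ℕ)).eval ((wt (i : ℕ) : ℕ) : K))).transpose := by
    ext i j
    have := (sym_iterate_D W (eW W (wt j)) (wt j)
      (by rw [sym_eW W _ (wt_ne_one _)]; exact natDegree_X_pow_le _) i).2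
    rw [Matrix.of_apply, Matrix.transpose_apply, Matrix.of_apply, add_comm]
    unfold wrM
    rw [this, sym_eW W _ (wt_ne_one _), coeff_X_pow, if_pos rfl, mul_one]
  rw [hA, Matrix.det_transpose,
    ← Matrix.det_eval_matrixOfPolynomials_eq_det_vandermonde
      (fun i : Fin n => ((wt (i : ℕ) : ℕ) : K)) (fun j : Fin n => ascPochhammer K (j : ℕ))
      (fun i => ascPochhammer_natDegree (S := K) _) (fun i => monic_ascPochhammer (S := K) _),
    Matrix.det_vandermonde_ne_zero_iff]
  intro a b hab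
  exact Fin.ext (wt_injective (Nat.cast_injective hab))

theorem wr_not_isUnit [CharZero K] {n : ℕ} (hn : 2 ≤ n) : ¬ IsUnit (wr W n) := by
  intro hu
  obtain ⟨g, hg⟩ := hu.exists_right_inv
  obtain ⟨h1, h2⟩ := wr_top W n
  have hg0 : sym W g ≠ 0 := by
    intro h0
    rw [sym_eq_zero_iff] at h0
    rw [h0, mul_zero] at hg
    exact zero_ne_one hg
  have h3 := coeff_sym_mul W (wr W n) g h1 (le_refl (sym W g).natDegree)
  rw [hg, sym_one, coeff_one, if_neg] at h3
  · exact (mul_ne_zero h2 (leadingCoeff_ne_zero.mpr hg0)) h3.symm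
  · have := two_le_wrT hn
    omega

end Fermat.Agent.Lib.TorsionExists
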