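/-
Existence of a nonzero `p`-torsion point (helper43).  Part 8: maximal ideals of the coordinate ring
over an algebraically closed field are points; evaluation at a point; the local datum.
-/
import Fermat.Agent.Lib.TorsionExists.Wronskian
import Fermat.Agent.Lib.TorsionExists.Local

set_option autoImplicit false

namespace Fermat.Agent.Lib.TorsionExists

open Polynomial WeierstrassCurve WeierstrassCurve.Affine
open scoped Polynomial.Bivariate

variable {K : Type*} [Field K] (W : Affine K)

/-- Evaluation at a point of the curve, as a `K`-algebra map with kernel `XYIdeal`. -/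
noncomputable def evP {x y : K} (h : W.Equation x y) : W.CoordinateRing →ₐ[K] K :=
  (CoordinateRing.quotientXYIdealEquiv (W' := W) (x := x) (y := C y) h).toAlgHom.comp
    (Ideal.Quotient.mkₐ K (CoordinateRing.XYIdeal W x (C y)))

lemma ker_evP {x y : K} (h : W.Equation x y) :
    RingHom.ker (evP W h) = CoordinateRing.XYIdeal W x (C y) := by
  ext f
  rw [RingHom.mem_ker]
  show (CoordinateRing.quotientXYIdealEquiv (W' := W) (x := x) (y := C y) h)
    (Ideal.Quotient.mk _ f) = 0 ↔ _
  rw [map_eq_zero_iff _ (AlgEquiv.injective _), Ideal.Quotient.eq_zero_iff_mem]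

lemma evP_XClass {x y : K} (h : W.Equation x y) : evP W h (CoordinateRing.XClass W x) = 0 := by
  rw [← RingHom.mem_ker, ker_evP]
  exact Ideal.subset_span (by simp)

lemma evP_YClass {x y : K} (h : W.Equation x y) : evP W h (CoordinateRing.YClass W (C y)) = 0 := by
  rw [← RingHom.mem_ker, ker_evP]
  exact Ideal.subset_span (by simp)

lemma evP_mk_C {x y : K} (h : W.Equation x y) (p : K[X]) :
    evP W h (CoordinateRing.mk W (C p)) = p.eval x := by
  have hX : evP W h (CoordinateRing.mk W (C X)) = x := by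
    have h0 := evP_XClass W h
    rw [CoordinateRing.XClass, C_sub, map_sub, map_sub] at h0
    have h1 : CoordinateRing.mk W (C (C x)) = algebraMap K W.CoordinateRing x := rfl
    rw [h1, AlgHom.commutes, sub_eq_zero] at h0
    exact h0
  let φ : K[X] →ₐ[K] K :=
    (evP W h).comp ((Algebra.ofId K[X] W.CoordinateRing).restrictScalars K)
  have hφ : ∀ q : K[X], φ q = evP W h (CoordinateRing.mk W (C q)) := fun q => rfl
  have : φ = Polynomial.aeval x := by
    apply Polynomial.algHom_ext
    rw [hφ, hX, aeval_X]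
  rw [← hφ, this, coe_aeval_eq_eval]

lemma evP_mk_Y {x y : K} (h : W.Equation x y) : evP W h (CoordinateRing.mk W Y) = y := by
  have h0 := evP_YClass W h
  rw [CoordinateRing.YClass, map_sub, map_sub, evP_mk_C, eval_C, sub_eq_zero] at h0
  exact h0

lemma evP_ofAB {x y : K} (h : W.Equation x y) (a b : K[X]) :
    evP W h (ofAB W a b) = a.eval x + b.eval x * y := by
  rw [ofAB_eq, map_add, map_mul, evP_mk_C, evP_mk_C, evP_mk_Y, mul_comm]

lemma XClass_eq_ofAB (x : K) : CoordinateRing.XClass W x = ofAB W (X - C x) 0 := by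
  rw [ofAB_eq, CoordinateRing.XClass]; simp

lemma YClass_eq_ofAB (y : K) : CoordinateRing.YClass W (C y) = ofAB W (- C y) 1 := by
  rw [ofAB_eq, CoordinateRing.YClass]; simp; ring

lemma evP_D_XClass {x y : K} (h : W.Equation x y) :
    evP W h (D W (CoordinateRing.XClass W x)) = 2 * y + W.a₁ * x + W.a₃ := by
  rw [XClass_eq_ofAB, D_ofAB, DAB, evP_ofAB]
  simp [lin]
  ring

lemma evP_D_YClass {x y : K} (h : W.Equation x y) :
    evP W h (D W (CoordinateRing.YClass W (C y))) =
      -(W.a₁ * y - (3 * x ^ 2 + 2 * W.a₂ * x + W.a₄)) := by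
  rw [YClass_eq_ofAB, D_ofAB, DAB, evP_ofAB]
  simp [lin, cub]
  ring

/-- The first order relation between `X - x` and `Y - y` at a point of the curve. -/
lemma linear_relation {x y : K} (h : W.Equation x y) :
    algebraMap K W.CoordinateRing (2 * y + W.a₁ * x + W.a₃) * CoordinateRing.YClass W (C y) +
      algebraMap K W.CoordinateRing (W.a₁ * y - (3 * x ^ 2 + 2 * W.a₂ * x + W.a₄)) *
        CoordinateRing.XClass W x +
      (CoordinateRing.YClass W (C y) ^ 2 +
        algebraMap K W.CoordinateRing W.a₁ * CoordinateRing.XClass W x *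
          CoordinateRing.YClass W (C y) -
        CoordinateRing.XClass W x ^ 3 -
        algebraMap K W.CoordinateRing (3 * x + W.a₂) * CoordinateRing.XClass W x ^ 2) = 0 := by
  have key : (C (C (2 * y + W.a₁ * x + W.a₃)) * (Y - C (C y)) +
      C (C (W.a₁ * y - (3 * x ^ 2 + 2 * W.a₂ * x + W.a₄))) * C (X - C x) +
      ((Y - C (C y)) ^ 2 + C (C W.a₁) * C (X - C x) * (Y - C (C y)) - C (X - C x) ^ 3 -
        C (C (3 * x + W.a₂)) * C (X - C x) ^ 2) : K[X][Y]) = W.polynomial * 1 := by
    have e := (equation_iff ..).mp h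
    have e' : y ^ 2 + W.a₁ * x * y + W.a₃ * y - (x ^ 3 + W.a₂ * x ^ 2 + W.a₄ * x + W.a₆) = 0 := by
      rw [e, sub_self]
    have : (C (C (2 * y + W.a₁ * x + W.a₃)) * (Y - C (C y)) +
      C (C (W.a₁ * y - (3 * x ^ 2 + 2 * W.a₂ * x + W.a₄))) * C (X - C x) +
      ((Y - C (C y)) ^ 2 + C (C W.a₁) * C (X - C x) * (Y - C (C y)) - C (X - C x) ^ 3 -
        C (C (3 * x + W.a₂)) * C (X - C x) ^ 2) : K[X][Y]) = W.polynomial * 1 -
        C (C (y ^ 2 + W.a₁ * x * y + W.a₃ * y - (x ^ 3 + W.a₂ * x ^ 2 + W.a₄ * x + W.a₆))) := by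
      rw [polynomial]
      simp only [map_ofNat, C_0, C_1, C_neg, C_add, C_sub, C_mul, C_pow]
      ring1
    rw [this, e', C_0, C_0, sub_zero]
  have h2 := congr_arg (CoordinateRing.mk W) key
  rw [map_mul, AdjoinRoot.mk_self, zero_mul] at h2
  rw [← h2]
  simp only [CoordinateRing.XClass, CoordinateRing.YClass, map_add, map_sub, map_mul, map_pow]
  rfl

end Fermat.Agent.Lib.TorsionExists
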