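/-
Existence of a nonzero `p`-torsion point (helper43).  Part 9: maximal ideals are points
(Nullstellensatz for the coordinate ring) and the local datum at a nonsingular point.
-/
import Fermat.Agent.Lib.TorsionExists.PointEval

set_option autoImplicit false
set_option linter.unusedSimpArgs false
set_option linter.style.haveILetI false

namespace Fermat.Agent.Lib.TorsionExists

open Polynomial WeierstrassCurve WeierstrassCurve.Affine
open scoped Polynomial.Bivariate

variable {K : Type*} [Field K] (W : Affine K)

lemma isMaximal_XYIdeal {x y : K} (h : W.Equation x y) :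
    (CoordinateRing.XYIdeal W x (C y)).IsMaximal := by
  rw [← ker_evP W h]
  exact RingHom.ker_isMaximal_of_surjective _ (fun c => ⟨algebraMap K _ c, by simp⟩)

/-- Over an algebraically closed field every maximal ideal of the coordinate ring is the ideal
of a point of the curve. -/
theorem exists_point_of_isMaximal [IsAlgClosed K] (I : Ideal W.CoordinateRing)
    (hI : I.IsMaximal) :
    ∃ x y : K, ∃ h : W.Equation x y, I = CoordinateRing.XYIdeal W x (C y) := by
  letI : Field (W.CoordinateRing ⧸ I) := Ideal.Quotient.field I
  haveI : Module.Finite K[X] W.CoordinateRing := Module.Finite.of_basis (CoordinateRing.basis W)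
  haveI : Algebra.FiniteType K[X] W.CoordinateRing := inferInstance
  haveI : Algebra.FiniteType K W.CoordinateRing :=
    Algebra.FiniteType.trans (inferInstance : Algebra.FiniteType K K[X]) inferInstance
  haveI : Algebra.FiniteType K (W.CoordinateRing ⧸ I) :=
    Algebra.FiniteType.of_surjective (Ideal.Quotient.mkₐ K I) Ideal.Quotient.mk_surjective
  haveI : Module.Finite K (W.CoordinateRing ⧸ I) := finite_of_finite_type_of_isJacobsonRing K _
  have hbij : Function.Bijective (algebraMap K (W.CoordinateRing ⧸ I)) :=
    IsAlgClosed.algebraMap_bijective_of_isIntegral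
  let e : K ≃ₐ[K] (W.CoordinateRing ⧸ I) := AlgEquiv.ofBijective (Algebra.ofId K _) hbij
  let ψ : W.CoordinateRing →ₐ[K] K := e.symm.toAlgHom.comp (Ideal.Quotient.mkₐ K I)
  have hker : RingHom.ker ψ = I := by
    ext f
    rw [RingHom.mem_ker]
    show e.symm (Ideal.Quotient.mk I f) = 0 ↔ _
    rw [map_eq_zero_iff _ (AlgEquiv.injective _), Ideal.Quotient.eq_zero_iff_mem]
  set x : K := ψ (CoordinateRing.mk W (C X)) with hx
  set y : K := ψ (CoordinateRing.mk W Y) with hy
  have hcomp : (ψ : W.CoordinateRing →+* K).comp (CoordinateRing.mk W) =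
      Polynomial.evalEvalRingHom x y := by
    apply Polynomial.ringHom_ext
    · intro p
      have h1 : (evalEvalRingHom x y) (C p) = p.eval x := by simp [evalEvalRingHom, evalEval]
      rw [h1]
      let φ : K[X] →ₐ[K] K :=
        ψ.comp ((Algebra.ofId K[X] W.CoordinateRing).restrictScalars K)
      have hφ : ∀ q : K[X], φ q = ψ (CoordinateRing.mk W (C q)) := fun q => rfl
      have : φ = Polynomial.aeval x := by
        apply Polynomial.algHom_ext
        rw [hφ, aeval_X]
      show ψ (CoordinateRing.mk W (C p)) = _
      rw [← hφ, this, coe_aeval_eq_eval]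
    · show ψ (CoordinateRing.mk W Y) = _
      simp [evalEvalRingHom, evalEval, hy]
  have heq : W.Equation x y := by
    have h0 : (ψ : W.CoordinateRing →+* K) (CoordinateRing.mk W W.polynomial) = 0 := by
      rw [AdjoinRoot.mk_self, map_zero]
    have h1 := congr_arg (fun g : K[X][Y] →+* K => g W.polynomial) hcomp
    simp only [RingHom.comp_apply] at h1
    rw [h0] at h1
    exact h1.symm
  refine ⟨x, y, heq, ?_⟩
  have hle : CoordinateRing.XYIdeal W x (C y) ≤ I := by
    rw [← hker, CoordinateRing.XYIdeal, Ideal.span_le]
    intro f hf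
    rcases hf with rfl | rfl
    · rw [SetLike.mem_coe, RingHom.mem_ker, CoordinateRing.XClass, C_sub, map_sub, map_sub]
      have h1 : CoordinateRing.mk W (C (C x)) = algebraMap K W.CoordinateRing x := rfl
      rw [h1, AlgHom.commutes, ← hx, Algebra.algebraMap_self_apply, sub_self]
    · rw [SetLike.mem_coe, RingHom.mem_ker, CoordinateRing.YClass, map_sub, map_sub]
      have h1 : CoordinateRing.mk W (C (C y)) = algebraMap K W.CoordinateRing y := rfl
      rw [h1, AlgHom.commutes, ← hy, Algebra.algebraMap_self_apply, sub_self]
  exact ((isMaximal_XYIdeal W heq).eq_of_le hI.ne_top hle).symm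

/-- The local datum at a nonsingular point. -/
theorem exists_datum {x y : K} (h : W.Nonsingular x y) :
    ∃ S : Local.Datum K W.CoordinateRing, S.ev = evP W h.1 ∧ S.D = Dlin W := by
  have hm : ∀ f, f ∈ RingHom.ker (evP W h.1) ↔ f ∈ CoordinateRing.XYIdeal W x (C y) := by
    intro f; rw [ker_evP]
  have hu : CoordinateRing.XClass W x ∈ RingHom.ker (evP W h.1) :=
    RingHom.mem_ker.mpr (evP_XClass W h.1)
  have hv : CoordinateRing.YClass W (C y) ∈ RingHom.ker (evP W h.1) :=
    RingHom.mem_ker.mpr (evP_YClass W h.1)
  have hQ : CoordinateRing.YClass W (C y) ^ 2 +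
        algebraMap K W.CoordinateRing W.a₁ * CoordinateRing.XClass W x *
          CoordinateRing.YClass W (C y) -
        CoordinateRing.XClass W x ^ 3 -
        algebraMap K W.CoordinateRing (3 * x + W.a₂) * CoordinateRing.XClass W x ^ 2 ∈
      RingHom.ker (evP W h.1) ^ 2 := by
    have huu : CoordinateRing.XClass W x ^ 2 ∈ RingHom.ker (evP W h.1) ^ 2 :=
      Ideal.pow_mem_pow hu 2
    have hvv : CoordinateRing.YClass W (C y) ^ 2 ∈ RingHom.ker (evP W h.1) ^ 2 :=
      Ideal.pow_mem_pow hv 2
    have huv : CoordinateRing.XClass W x * CoordinateRing.YClass W (C y) ∈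
        RingHom.ker (evP W h.1) ^ 2 := by
      rw [pow_two]; exact Ideal.mul_mem_mul hu hv
    refine Ideal.sub_mem _ (Ideal.sub_mem _ (Ideal.add_mem _ hvv ?_) ?_) ?_
    · rw [mul_assoc]; exact Ideal.mul_mem_left _ _ huv
    · have h3 : CoordinateRing.XClass W x ^ 3 =
          CoordinateRing.XClass W x ^ 2 * CoordinateRing.XClass W x := pow_succ _ 2
      rw [h3]; exact Ideal.mul_mem_right _ _ huu
    · exact Ideal.mul_mem_left _ _ huu
  have hrel := linear_relation W h.1
  rcases ((nonsingular_iff' ..).mp h).2 with hx | hy
  · -- `W_X ≠ 0`: take `t = Y - y`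
    refine ⟨{ ev := evP W h.1, D := Dlin W, D_mul := D_mul W,
              t := CoordinateRing.YClass W (C y), ev_t := evP_YClass W h.1,
              ev_Dt := ?_, le_sup := ?_ }, rfl, rfl⟩
    · rw [Dlin_apply, evP_D_YClass]
      exact neg_ne_zero.mpr hx
    · refine le_of_eq_of_le (ker_evP W h.1) ?_
      rw [CoordinateRing.XYIdeal, Ideal.span_le]
      intro f hf
      rcases hf with rfl | rfl
      · -- `X - x`
        set c := W.a₁ * y - (3 * x ^ 2 + 2 * W.a₂ * x + W.a₄) with hc
        have : CoordinateRing.XClass W x =
            algebraMap K W.CoordinateRing (-c⁻¹ * (2 * y + W.a₁ * x + W.a₃)) *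
              CoordinateRing.YClass W (C y) +
            algebraMap K W.CoordinateRing (-c⁻¹) *
              (CoordinateRing.YClass W (C y) ^ 2 +
                algebraMap K W.CoordinateRing W.a₁ * CoordinateRing.XClass W x *
                  CoordinateRing.YClass W (C y) -
                CoordinateRing.XClass W x ^ 3 -
                algebraMap K W.CoordinateRing (3 * x + W.a₂) * CoordinateRing.XClass W x ^ 2) := by
          have h1 : algebraMap K W.CoordinateRing (-c⁻¹) * algebraMap K W.CoordinateRing c = -1 := by
            rw [← map_mul, neg_mul, inv_mul_cancel₀ hx, map_neg, map_one]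
          rw [map_mul]
          linear_combination (-1 : W.CoordinateRing) * (algebraMap K W.CoordinateRing (-c⁻¹)) * hrel
            + CoordinateRing.XClass W x * h1
        rw [this]
        refine Submodule.add_mem_sup (Ideal.mul_mem_left _ _ (Ideal.subset_span rfl)) ?_
        exact Ideal.mul_mem_left _ _ hQ
      · exact Submodule.mem_sup_left (Ideal.subset_span rfl)
  · -- `W_Y ≠ 0`: take `t = X - x`
    refine ⟨{ ev := evP W h.1, D := Dlin W, D_mul := D_mul W,
              t := CoordinateRing.XClass W x, ev_t := evP_XClass W h.1,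
              ev_Dt := ?_, le_sup := ?_ }, rfl, rfl⟩
    · rw [Dlin_apply, evP_D_XClass]
      exact hy
    · refine le_of_eq_of_le (ker_evP W h.1) ?_
      rw [CoordinateRing.XYIdeal, Ideal.span_le]
      intro f hf
      rcases hf with rfl | rfl
      · exact Submodule.mem_sup_left (Ideal.subset_span rfl)
      · set c := 2 * y + W.a₁ * x + W.a₃ with hc
        have : CoordinateRing.YClass W (C y) =
            algebraMap K W.CoordinateRing
              (-c⁻¹ * (W.a₁ * y - (3 * x ^ 2 + 2 * W.a₂ * x + W.a₄))) *
              CoordinateRing.XClass W x +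
            algebraMap K W.CoordinateRing (-c⁻¹) *
              (CoordinateRing.YClass W (C y) ^ 2 +
                algebraMap K W.CoordinateRing W.a₁ * CoordinateRing.XClass W x *
                  CoordinateRing.YClass W (C y) -
                CoordinateRing.XClass W x ^ 3 -
                algebraMap K W.CoordinateRing (3 * x + W.a₂) * CoordinateRing.XClass W x ^ 2) := by
          have h1 : algebraMap K W.CoordinateRing (-c⁻¹) * algebraMap K W.CoordinateRing c = -1 := by
            rw [← map_mul, neg_mul, inv_mul_cancel₀ hy, map_neg, map_one]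
          rw [map_mul]
          linear_combination (-1 : W.CoordinateRing) * (algebraMap K W.CoordinateRing (-c⁻¹)) * hrel
            + CoordinateRing.YClass W (C y) * h1
        rw [this]
        refine Submodule.add_mem_sup (Ideal.mul_mem_left _ _ (Ideal.subset_span rfl)) ?_
        exact Ideal.mul_mem_left _ _ hQ

end Fermat.Agent.Lib.TorsionExists
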