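/-
Existence of a nonzero `p`-torsion point on the Frey curve over `ℚ̄` (helper43): the first clause
`Nontrivial E[p]` of `GaloisRepIsIrreducible`, for every Frey package.
-/
import Fermat.Agent.Lib.TorsionExists.Corollary
import Fermat.Prelude.Def_FLTPrelim_FreyPackage
import Fermat.Prelude.Def_FLTPrelim_GaloisRep

set_option autoImplicit false

namespace Fermat.Agent.Lib.TorsionExists

open WeierstrassCurve WeierstrassCurve.Affine

lemma freyCurve_Δ (P : FreyPackage) :
    P.freyCurve.Δ = (((P.a : ℚ) ^ P.p) * ((P.b : ℚ) ^ P.p) * ((P.c : ℚ) ^ P.p)) ^ 2 / 256 := by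
  have h : ((P.c : ℚ) ^ P.p) = (P.a : ℚ) ^ P.p + (P.b : ℚ) ^ P.p := by
    have := P.hFLT
    exact_mod_cast this.symm
  rw [h]
  simp only [WeierstrassCurve.Δ, WeierstrassCurve.b₂, WeierstrassCurve.b₄, WeierstrassCurve.b₆,
    WeierstrassCurve.b₈, FreyPackage.freyCurve]
  ring

lemma freyCurve_Δ_ne_zero (P : FreyPackage) : P.freyCurve.Δ ≠ 0 := by
  rw [freyCurve_Δ]
  have ha : ((P.a : ℚ) ^ P.p) ≠ 0 := pow_ne_zero _ (Int.cast_ne_zero.mpr P.ha0)
  have hb : ((P.b : ℚ) ^ P.p) ≠ 0 := pow_ne_zero _ (Int.cast_ne_zero.mpr P.hb0)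
  have hc : ((P.c : ℚ) ^ P.p) ≠ 0 := pow_ne_zero _ (Int.cast_ne_zero.mpr P.hc0)
  exact div_ne_zero (pow_ne_zero _ (mul_ne_zero (mul_ne_zero ha hb) hc)) (by norm_num)

/-- The `p`-torsion of the Frey curve over `ℚ̄` is nontrivial. -/
theorem nontrivial_torsionBy_freyCurve (P : FreyPackage) :
    Nontrivial (Submodule.torsionBy ℤ (P.freyCurve.toAffine⁄(AlgebraicClosure ℚ)).Point P.p) :=
  nontrivial_torsionBy_baseChange (K := AlgebraicClosure ℚ) P.freyCurve.toAffine
    (freyCurve_Δ_ne_zero P) P.p (by have := P.hp5; omega)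

/-- Consequently reducibility of the Frey representation yields a proper nonzero stable subspace. -/
theorem exists_stable_of_not_irreducible (P : FreyPackage)
    (hred : ¬ Point.GaloisRepIsIrreducible (K := AlgebraicClosure ℚ) ℚ P.freyCurve P.p) :
    ∃ N : Submodule (ZMod P.p)
        (Submodule.torsionBy ℤ (P.freyCurve.toAffine⁄(AlgebraicClosure ℚ)).Point P.p),
      Point.IsGaloisStable ℚ N ∧ N ≠ ⊥ ∧ N ≠ ⊤ := by
  unfold Point.GaloisRepIsIrreducible at hred
  rw [not_and_or] at hred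
  rcases hred with h | h
  · exact absurd (nontrivial_torsionBy_freyCurve P) h
  · push Not at h
    obtain ⟨N, hN, h1, h2⟩ := h
    exact ⟨N, hN, h1, h2⟩

end Fermat.Agent.Lib.TorsionExists
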